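import Mathlib.LinearAlgebra.Matrix.ToLin
import Fermat.Agent.Ihara.RaiseBase

/-!
# Coordinates on `Hom_cl` over a field

A basis of `Hom_cl(Γ, ℤ)` gives coordinates on `Hom_cl(Γ, K)`, carrying integral matrices to the
base changes of the maps.
-/

noncomputable section

open scoped MatrixGroups
open CongruenceSubgroup Fermat.Agent.Grp Fermat.Agent.Ihara Matrix

namespace Fermat.Agent.Raising

section Comb

variable {K : Type*} [CommRing K] {ι₁ ι₂ : Type*} [Fintype ι₁] [Fintype ι₂] [DecidableEq ι₁]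
  [DecidableEq ι₂]
  {H₁ H₂ V₁ V₂ : Type*} [AddCommGroup H₁] [AddCommGroup H₂] [AddCommGroup V₁] [AddCommGroup V₂]
  [Module K V₁] [Module K V₂]

/-- Linear combinations of the images of a basis. -/
def comb (b : Module.Basis ι₁ ℤ H₁) (c : H₁ →+ V₁) : (ι₁ → K) →ₗ[K] V₁ :=
  Fintype.linearCombination K fun i => c (b i)

omit [DecidableEq ι₁] in
theorem comb_apply (b : Module.Basis ι₁ ℤ H₁) (c : H₁ →+ V₁) (v : ι₁ → K) :
    comb b c v = ∑ i, v i • c (b i) :=
  Fintype.linearCombination_apply K _ v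

omit [DecidableEq ι₂] in
/-- A map compatible with an integral map acts by its matrix. -/
theorem comb_mulVec (b₁ : Module.Basis ι₁ ℤ H₁) (b₂ : Module.Basis ι₂ ℤ H₂) (c₁ : H₁ →+ V₁)
    (c₂ : H₂ →+ V₂) (L : H₁ →ₗ[ℤ] H₂) (f : V₁ →ₗ[K] V₂) (h : ∀ x, f (c₁ x) = c₂ (L x))
    (v : ι₁ → K) :
    comb b₂ c₂ (((LinearMap.toMatrix b₁ b₂ L).map (Int.castRingHom K)).mulVec v) =
      f (comb b₁ c₁ v) := by
  rw [comb_apply, comb_apply, map_sum]
  simp only [map_smul, h, Matrix.mulVec, dotProduct, Finset.sum_smul]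
  rw [Finset.sum_comm]
  refine Finset.sum_congr rfl fun j _ => ?_
  conv_rhs => rw [← b₂.sum_repr (L (b₁ j)), map_sum, Finset.smul_sum]
  refine Finset.sum_congr rfl fun i _ => ?_
  rw [map_zsmul, ← Int.cast_smul_eq_zsmul K (b₂.repr (L (b₁ j)) i) (c₂ (b₂ i)), smul_smul,
    Matrix.map_apply, LinearMap.toMatrix_apply, eq_intCast, mul_comm]

end Comb

variable {K : Type} [Field K] {Γ : Subgroup SL(2, ℤ)} [Γ.FiniteIndex] {ι : Type*} [Fintype ι]
  [DecidableEq ι]

/-- Coordinates on `Hom_cl(Γ, K)`. -/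
def clVec (b : Module.Basis ι ℤ (clHoms ℤ Γ ℤ)) : (ι → K) →ₗ[K] clHoms K Γ K :=
  comb b (clMap (Int.castRingHom K))

omit [DecidableEq ι] in
theorem clVec_surjective (b : Module.Basis ι ℤ (clHoms ℤ Γ ℤ)) (hneg : (-1 : SL(2, ℤ)) ∈ Γ) :
    Function.Surjective (clVec (K := K) b) := by
  rw [← LinearMap.range_eq_top, eq_top_iff, ← span_range_clMap hneg, Submodule.span_le]
  rintro _ ⟨φ, rfl⟩
  refine ⟨fun i => ((b.repr φ i : ℤ) : K), ?_⟩
  rw [clVec, comb_apply]
  conv_rhs => rw [← b.sum_repr φ, map_sum]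
  refine Finset.sum_congr rfl fun i _ => ?_
  rw [map_zsmul, ← Int.cast_smul_eq_zsmul K]

theorem clVec_injective (b : Module.Basis ι ℤ (clHoms ℤ Γ ℤ)) (hneg : (-1 : SL(2, ℤ)) ∈ Γ) :
    Function.Injective (clVec (K := K) b) := by
  classical
  obtain ⟨γ, e, he, -, hdec⟩ := clBasis_exists Γ hneg
  rw [← LinearMap.ker_eq_bot, LinearMap.ker_eq_bot']
  intro v hv
  funext l
  have hQ : ∀ i, (∑ j, ((b i : clHoms ℤ Γ ℤ) : Additive Γ →+ ℤ) (Additive.ofMul (γ j)) *
      b.repr ⟨e j, he j⟩ l : ℤ) = if i = l then 1 else 0 := by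
    intro i
    have hi : b i = ∑ j, ((b i : clHoms ℤ Γ ℤ) : Additive Γ →+ ℤ) (Additive.ofMul (γ j)) •
        (⟨e j, he j⟩ : clHoms ℤ Γ ℤ) := by
      refine Subtype.ext (AddMonoidHom.ext fun x => ?_)
      rw [AddSubmonoidClass.coe_finsetSum, AddMonoidHom.finsetSum_apply,
        hdec ℤ _ (b i).2 x]
      refine Finset.sum_congr rfl fun j _ => ?_
      show e j x * _ = _ * e j x
      rw [mul_comm]
    have h := congrArg (fun φ => b.repr φ l) hi
    simp only [map_sum, map_zsmul, Finsupp.coe_finsetSum, Finset.sum_apply, Finsupp.smul_apply,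
      smul_eq_mul, b.repr_self, Finsupp.single_apply] at h
    rw [← h]
  have hev : ∀ j, ∑ i, v i *
      ((((b i : clHoms ℤ Γ ℤ) : Additive Γ →+ ℤ) (Additive.ofMul (γ j)) : ℤ) : K) = 0 := by
    intro j
    have h := DFunLike.congr_fun (congrArg Subtype.val hv) (Additive.ofMul (γ j))
    rw [clVec, comb_apply, AddSubmonoidClass.coe_finsetSum, AddMonoidHom.finsetSum_apply] at h
    exact h
  calc v l = ∑ i, v i * (((if i = l then 1 else 0 : ℤ)) : K) := by
        simp [Finset.sum_ite_eq']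
    _ = ∑ i, ∑ j, v i *
        (((((b i : clHoms ℤ Γ ℤ) : Additive Γ →+ ℤ) (Additive.ofMul (γ j)) : ℤ) : K) *
          ((b.repr ⟨e j, he j⟩ l : ℤ) : K)) := by
        refine Finset.sum_congr rfl fun i _ => ?_
        rw [← hQ i, Int.cast_sum, Finset.mul_sum]
        simp only [Int.cast_mul]
    _ = ∑ j, (∑ i, v i *
        ((((b i : clHoms ℤ Γ ℤ) : Additive Γ →+ ℤ) (Additive.ofMul (γ j)) : ℤ) : K)) *
          ((b.repr ⟨e j, he j⟩ l : ℤ) : K) := by
        rw [Finset.sum_comm]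
        refine Finset.sum_congr rfl fun j _ => ?_
        rw [Finset.sum_mul]
        simp only [mul_assoc]
    _ = 0 := by simp [hev]

end Fermat.Agent.Raising
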