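import Fermat.Agent.Attach.Inputs
import Fermat.Agent.Raising.NewPoints.Coeff
import Fermat.Agent.TwoComponent.NewPart.Geo
import Fermat.Agent.TwoComponent.NewPart.Main

/-!
# New points at level `Γ₀(N q)`

An eigenvector in `Hom_cl(Γ₀(N q), K)` killed by both transfers has Frobenius trace `±(q + 1)` at
`q`.
-/

noncomputable section

open Polynomial CongruenceSubgroup ModularCurve
open Fermat.Agent.Grp Fermat.Agent.Ihara Fermat.Agent.TwoComponent Fermat.Agent.Attach

namespace Fermat.Agent.Raising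

local notation "Qbar" => AlgebraicClosure ℚ
local notation "GQ" => (AlgebraicClosure ℚ ≃ₐ[ℚ] AlgebraicClosure ℚ)

/-- The old subspace in coordinates. -/
theorem clVec_oldMat {N q : ℕ} [NeZero N] [NeZero q] (p : ℕ) [NeZero p] {K : Type} [Field K]
    (w : Fin (torsionModel N p).rk ⊕ Fin (torsionModel N p).rk → K) :
    clVec (Γ := Gamma0 (N * q)) (torsionModel (N * q) p).bas
        (((oldMat N q p).map (Int.castRingHom K)).mulVec w) =
      clI K N q (clVec (Γ := Gamma0 N) (torsionModel N p).bas (fun i => w (Sum.inl i)),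
        clVec (Γ := Gamma0 N) (torsionModel N p).bas (fun i => w (Sum.inr i))) := by
  let b' : Module.Basis (Fin (torsionModel N p).rk) ℤ (clLattice N) := (torsionModel N p).bas
  let b : Module.Basis (Fin (torsionModel N p).rk ⊕ Fin (torsionModel N p).rk) ℤ
      (clLattice N × clLattice N) := b'.prod b'
  let c : clLattice N × clLattice N →+ clH K N × clH K N :=
    (clMap (Γ := Gamma0 N) (Int.castRingHom K)).prodMap (clMap (Γ := Gamma0 N) (Int.castRingHom K))
  have h : comb (K := K) b c w = (clVec (Γ := Gamma0 N) b' (fun i => w (Sum.inl i)),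
      clVec (Γ := Gamma0 N) b' (fun i => w (Sum.inr i))) := by
    rw [comb_apply, Fintype.sum_sum_type, clVec, comb_apply, comb_apply]
    ext1
    · simp [b, c, b', Prod.fst_sum]
    · simp [b, c, b', Prod.snd_sum]
  refine Eq.trans ?_ (congrArg (clI K N q) h)
  let bL : Module.Basis (Fin (torsionModel (N * q) p).rk) ℤ (clLattice (N * q)) :=
    (torsionModel (N * q) p).bas
  refine comb_mulVec (K := K) (V₁ := clH K N × clH K N) (V₂ := clH K (N * q)) b bL c
    (clMap (Γ := Gamma0 (N * q)) (Int.castRingHom K)) (clI ℤ N q) (clI K N q) (fun x => ?_) w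
  exact clI_clMap (Int.castRingHom K) x

/-- The Hecke operator at a prime outside the level in coordinates. -/
theorem clVec_mulVec_T (p : ℕ) [NeZero p] {K : Type} [Field K] (L : ℕ) [NeZero L] (ℓ : ℕ) [NeZero ℓ]
    (hℓ : ℓ.Prime) (hℓL : ¬ ℓ ∣ L) (v : Fin (torsionModel L p).rk → K) :
    clVec (Γ := Gamma0 L) (torsionModel L p).bas ((((torsionModel L p).mat
      (CuspForm.heckeAlgebra.T hℓ hℓL hℓL)).map (Int.castRingHom K)).mulVec v) =
      clT K L ℓ (clVec (Γ := Gamma0 L) (torsionModel L p).bas v) := by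
  refine comb_mulVec (torsionModel L p).bas (torsionModel L p).bas
    (clMap (Γ := Gamma0 L) (Int.castRingHom K)) (clMap (Γ := Gamma0 L) (Int.castRingHom K))
    ((torsionModel L p).hecke (CuspForm.heckeAlgebra.T hℓ hℓL hℓL)) (clT K L ℓ) (fun x => ?_) v
  exact (clT_clMap (Int.castRingHom K) x).trans
    (congrArg _ (Subtype.ext (latticeHecke_T L hℓ hℓL x).symm))

/-- `±(q + 1)` is not an eigenvalue of `T_q` on `Hom_cl(Γ₀(N), K)`, `q` outside the level. -/
theorem eq_zero_of_clT_eq {N q : ℕ} [NeZero N] [NeZero q] (p : ℕ) [NeZero p] (hq : q.Prime)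
    (hqN : ¬ q ∣ N) {K : Type} [Field K] [CharZero K] (c : ℤ) (hc : |c| = (q : ℤ) + 1)
    (u : clH K N) (hu : clT K N q u = (c : K) • u) : u = 0 := by
  classical
  have hneg : (-1 : Matrix.SpecialLinearGroup (Fin 2) ℤ) ∈ Gamma0 N := Grp.neg_one_mem_Gamma0 N
  set M' := torsionModel N p
  set A' := M'.mat (CuspForm.heckeAlgebra.T hq hqN hqN) with hA'
  obtain ⟨w, rfl⟩ := clVec_surjective (K := K) M'.bas hneg u
  have hw : (A'.map (Int.castRingHom K)).mulVec w = (c : K) • w := by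
    refine clVec_injective M'.bas hneg ?_
    rw [clVec_mulVec_T p N q hq hqN w, hu, map_smul]
  by_contra hne
  refine charpoly_eval_ne_zero (N := N) p hq hqN c hc ?_
  rw [← hA', Matrix.eval_charpoly]
  refine Int.cast_injective (α := K) ?_
  rw [Int.cast_zero, ← eq_intCast (Int.castRingHom K), RingHom.map_det]
  refine Matrix.exists_mulVec_eq_zero_iff.mp ⟨w, fun h => hne (by rw [h, map_zero]), ?_⟩
  rw [map_sub, Matrix.sub_mulVec, RingHom.mapMatrix_apply, RingHom.mapMatrix_apply, hw]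
  rw [Matrix.scalar_apply, Matrix.diagonal_map (map_zero _), sub_eq_zero]
  funext i
  rw [Matrix.mulVec_diagonal]
  rfl

/-- The two transfers detect the old subspace. -/
theorem eq_zero_of_clJ_oldMat {N q : ℕ} [NeZero N] [NeZero q] (p : ℕ) [NeZero p] (hq : q.Prime)
    (hqN : ¬ q ∣ N) {K : Type} [Field K] [CharZero K]
    (w : Fin (torsionModel N p).rk ⊕ Fin (torsionModel N p).rk → K)
    (hw : clJ K N q (clVec (Γ := Gamma0 (N * q)) (torsionModel (N * q) p).bas
      (((oldMat N q p).map (Int.castRingHom K)).mulVec w)) = 0) : w = 0 := by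
  have hneg : (-1 : Matrix.SpecialLinearGroup (Fin 2) ℤ) ∈ Gamma0 N := Grp.neg_one_mem_Gamma0 N
  set w₁ : Fin (torsionModel N p).rk → K := fun i => w (Sum.inl i)
  set w₂ : Fin (torsionModel N p).rk → K := fun i => w (Sum.inr i)
  have h := (congrArg (clJ K N q) (clVec_oldMat p w)).symm.trans hw
  rw [clJ_clI hq hqN, Prod.ext_iff] at h
  obtain ⟨h1, h2⟩ := h
  simp only [Prod.fst_zero, Prod.snd_zero, ← Nat.cast_smul_eq_nsmul K] at h1 h2
  set a := clVec (Γ := Gamma0 N) (torsionModel N p).bas w₁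
  set a' := clVec (Γ := Gamma0 N) (torsionModel N p).bas w₂
  have hsum : a + a' = 0 :=
    eq_zero_of_clT_eq p hq hqN (-((q : ℤ) + 1))
      (by rw [abs_neg, abs_of_nonneg]; positivity) _ (by
    rw [LinearMap.map_add]
    push_cast at h1 h2 ⊢
    linear_combination (norm := module) h1 + h2)
  have hdiff : a - a' = 0 :=
    eq_zero_of_clT_eq p hq hqN ((q : ℤ) + 1) (abs_of_nonneg (by positivity)) _ (by
    rw [sub_eq_add_neg, ← neg_one_smul K a', LinearMap.map_add, LinearMap.map_smul]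
    push_cast at h1 h2 ⊢
    linear_combination (norm := module) h2 - h1)
  have ha : a = 0 := by
    have h2a : (2 : K) • a = 0 := by linear_combination (norm := module) hsum + hdiff
    exact (smul_eq_zero.mp h2a).resolve_left two_ne_zero
  have ha' : a' = 0 := by rw [ha, zero_add] at hsum; exact hsum
  have e1 : w₁ = 0 := clVec_injective _ hneg (ha.trans (map_zero _).symm)
  have e2 : w₂ = 0 := clVec_injective _ hneg (ha'.trans (map_zero _).symm)
  funext i
  cases i
  · exact congrFun e1 _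
  · exact congrFun e2 _

/-- **New points.** The Frobenius at `q` of the representation of an eigenvector killed by both
transfers. -/
theorem charpoly_frobenius_of_new {N q : ℕ} [NeZero N] [NeZero q] (hq : q.Prime) (hqN : ¬ q ∣ N)
    {p : ℕ} [Fact p.Prime] (hqp : q ≠ p)
    {S : Finset ℕ} (hpS : p ∈ S) (hS : ∀ r, r.Prime → r ∣ N * q → r ∈ (↑S : Set ℕ))
    {O : Type} [CommRing O] [IsDomain O] [IsDiscreteValuationRing O]
    [IsAdicComplete (IsLocalRing.maximalIdeal O) O] [CharZero O]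
    (hp : (p : O) ∈ IsLocalRing.maximalIdeal O)
    {K : Type} [Field K] [CharZero K] (j : O →+* K) (hj : Function.Injective j)
    (θ : CuspForm.heckeAlgebra (N * q) 2 (↑S : Set ℕ) →+* O)
    (y : clH K (N * q)) (hy0 : y ≠ 0) (hA : clCorA K N q y = 0) (hB : clCorB K N q y = 0)
    (heig : ∀ (ℓ : ℕ) [NeZero ℓ] (hℓ : ℓ.Prime) (hℓN : ¬ ℓ ∣ N * q) (hℓS : ℓ ∉ (↑S : Set ℕ)),
      clT K (N * q) ℓ y = j (θ (CuspForm.heckeAlgebra.T hℓ hℓN hℓS)) • y)
    (ρ : GaloisRepAdic O)
    (hρ : ∀ (ℓ : ℕ) (hℓ : ℓ.Prime) (hℓN : ¬ ℓ ∣ N * q) (hℓS : ℓ ∉ (↑S : Set ℕ)),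
      ∀ A : ValuationSubring Qbar, A.LiesOverPrime ℓ → ∀ σ : GQ, A.IsFrobeniusAt σ ℓ →
        LinearMap.charpoly (ρ.ρ σ) =
          X ^ 2 - C (θ (CuspForm.heckeAlgebra.T hℓ hℓN hℓS)) * X + C ((ℓ : O)))
    {A : ValuationSubring Qbar} (hAq : A.LiesOverPrime q) {σ : GQ} (hσ : A.IsFrobeniusAt σ q) :
    (ρ.trace σ = (q : O) + 1 ∨ ρ.trace σ = -((q : O) + 1)) ∧
      LinearMap.charpoly (ρ.ρ σ) = X ^ 2 - C (ρ.trace σ) * X + C (q : O) := by
  classical
  have : NeZero p := ⟨(Fact.out : p.Prime).ne_zero⟩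
  obtain ⟨I⟩ := Attach.nonempty_jacobianInputs (N * q) p
  obtain ⟨I'⟩ := Attach.nonempty_jacobianInputs N p
  have hG : TorsionGalois (N * q) p := I.galois
  have hG' : TorsionGalois N p := I'.galois
  set M := torsionModel (N * q) p with hMdef
  set M' := torsionModel N p with hM'def
  set old := oldMat N q p with holddef
  have hneg : ∀ L : ℕ, (-1 : Matrix.SpecialLinearGroup (Fin 2) ℤ) ∈ Gamma0 L :=
    Grp.neg_one_mem_Gamma0
  set cM := clVec (K := K) M.bas with hcM
  obtain ⟨v, hv⟩ := clVec_surjective (K := K) M.bas (hneg (N * q)) y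
  have hv0 : v ≠ 0 := fun h => hy0 (by rw [← hv, h, map_zero])
  have hvE : v ∈ jointEigen j M M' hS θ := by
    refine mem_jointEigen_of_T j fun ℓ hℓ hℓN hℓS => ?_
    have : NeZero ℓ := ⟨hℓ.ne_zero⟩
    refine clVec_injective M.bas (hneg (N * q)) ?_
    rw [map_smul, endK_apply]
    have e : (M.matO O hS (CuspForm.heckeAlgebra.T hℓ hℓN hℓS)).map j =
        (M.mat (CuspForm.heckeAlgebra.T hℓ hℓN hℓN)).map (Int.castRingHom K) :=
      Matrix.ext fun i l => map_intCast j _
    rw [e, clVec_mulVec_T p (N * q) ℓ hℓ hℓN v, hv]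
    exact heig ℓ hℓ hℓN hℓS
  set CK := old.map (Int.castRingHom K) with hCK
  obtain ⟨hcp, Φ, Φ', μ, k1, hRΦ, k2, hμ0, k3, k4, hrank, k9⟩ :=
    exists_frobenius_relations hq hqN hqp hG hG'
      (fun ℓ hℓ hℓN hℓM => mat_mul_oldMat p hℓ hℓN hℓM) (charpoly_eval_ne_zero (N := N) p hq hqN)
      (frobeniusImageBound N q p hq hqN hqp) hpS hS hp j hj θ ρ hρ hAq hσ
  let J : (Fin M.rk → K) →ₗ[K] (clH K N × clH K N) := LinearMap.comp (clJ K N q) cM
  have hJI : ∀ w, J (CK.mulVecLin w) = 0 → w = 0 := fun w hw =>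
    eq_zero_of_clJ_oldMat p hq hqN w hw
  have hJv : J v = 0 := by
    show clJ K N q (cM v) = 0
    rw [hcM, hv]
    exact Prod.ext hA hB
  have key := eigen_eq_of_rank_new (K := K) (q := (q : K)) (t := j (ρ.trace σ))
    (Nat.cast_ne_zero.mpr hq.ne_zero) CK.mulVecLin
    (mulVec_map_injective old (oldMat_injective p hq hqN))
    k1 hRΦ k2 μ hμ0 k3 k4 hrank (U := clH K N × clH K N) J hJI _
    (fun x hx => endK_repO_mem_jointEigen j hp hG σ hx) k9 hvE hv0 hJv
  refine ⟨?_, hcp⟩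
  rcases key with h | h
  · exact Or.inl (hj (h.trans (by simp)))
  · exact Or.inr (hj (h.trans (by simp)))

end Fermat.Agent.Raising
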