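import Fermat.Agent.EigenTwist.TwistNew

/-!
# New at `q` for characters of `Γ(D)`, and twisting

`NewAt q X i j M x`: the traces along the cosets cut out by the entry `(i, j)` modulo `q`, with
representatives congruent to `1` modulo `M`, transported by `X`, vanish on `x`.  This is what
being killed by the two transfers means after restriction to `Γ(D)`, and twisting preserves it.
-/

noncomputable section

namespace Fermat.Agent.Raising

open scoped MatrixGroups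
open CongruenceSubgroup Fermat.Agent.Grp Fermat.Agent.Ihara Fermat.Agent.EigenTwist

section Reps

variable {q : ℕ} {i j : Fin 2}

/-- Representatives of the cosets cut out by the entry `(i, j)` modulo `q`. -/
def IsReps (q : ℕ) (i j : Fin 2) {ι : Type} (r : ι → SL(2, ℤ)) : Prop :=
  ∀ g : SL(2, ℤ), ∃! k, (q : ℤ) ∣ ((r k)⁻¹ * g).1 i j

theorem dvd_entry_iff (r g : SL(2, ℤ)) :
    (q : ℤ) ∣ (r⁻¹ * g).1 i j ↔
      ((Matrix.SpecialLinearGroup.map (Int.castRingHom (ZMod q)) r)⁻¹ *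
        Matrix.SpecialLinearGroup.map (Int.castRingHom (ZMod q)) g).1 i j = 0 := by
  rw [← map_inv, ← map_mul, ← ZMod.intCast_zmod_eq_zero_iff_dvd]
  rfl

theorem IsReps.congr {ι : Type} {r r' : ι → SL(2, ℤ)} (h : IsReps q i j r)
    (he : ∀ k, Matrix.SpecialLinearGroup.map (Int.castRingHom (ZMod q)) (r' k) =
      Matrix.SpecialLinearGroup.map (Int.castRingHom (ZMod q)) (r k)) : IsReps q i j r' := by
  intro g
  obtain ⟨k, hk, huniq⟩ := h g
  refine ⟨k, ?_, fun l hl => huniq l ?_⟩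
  · exact (dvd_entry_iff _ g).mpr (by rw [he]; exact (dvd_entry_iff _ g).mp hk)
  · exact (dvd_entry_iff _ g).mpr (by rw [← he]; exact (dvd_entry_iff _ g).mp hl)

/-- For `e ≡ 1` modulo `q`, a lift of `(0, 1; -1, 0)`. -/
def wLift (e : ℤ) : SL(2, ℤ) := ModularGroup.T ^ e * lowerN (-e) * ModularGroup.T ^ e

theorem coe_wLift_inv (e : ℤ) :
    ((wLift e)⁻¹).1 = !![1 - e ^ 2, -e - e * (1 - e ^ 2); e, 1 - e ^ 2] := by
  rw [wLift, mul_inv_rev, mul_inv_rev, lowerN_inv, neg_neg, ← zpow_neg]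
  simp only [Matrix.SpecialLinearGroup.coe_mul, ModularGroup.coe_T_zpow, lowerN,
    Matrix.mul_fin_two]
  ext a b
  fin_cases a <;> fin_cases b <;> simp <;> ring

theorem lowerN_mem_Gamma {M : ℕ} {c : ℤ} (h : (M : ℤ) ∣ c) : lowerN c ∈ Gamma M := by
  refine mem_Gamma_iff_dvd.mpr fun a b => ?_
  fin_cases a <;> fin_cases b <;> simp [lowerN, h]

theorem T_zpow_mem_Gamma {M : ℕ} {c : ℤ} (h : (M : ℤ) ∣ c) : ModularGroup.T ^ c ∈ Gamma M := by
  refine mem_Gamma_iff_dvd.mpr fun a b => ?_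
  rw [ModularGroup.coe_T_zpow]
  fin_cases a <;> fin_cases b <;> simp [h]

theorem wLift_mem_Gamma {M : ℕ} {e : ℤ} (h : (M : ℤ) ∣ e) : wLift e ∈ Gamma M :=
  mul_mem (mul_mem (T_zpow_mem_Gamma h) (lowerN_mem_Gamma (dvd_neg.mpr h))) (T_zpow_mem_Gamma h)

variable [Fact q.Prime] {M : ℕ}

theorem exists_dvd_intCast_eq (hM : Nat.Coprime M q) (k : ZMod q) :
    ∃ c : ℤ, (M : ℤ) ∣ c ∧ (c : ZMod q) = k := by
  have hM0 : (M : ZMod q) ≠ 0 := fun h =>
    (Fact.out : q.Prime).coprime_iff_not_dvd.mp hM.symm ((ZMod.natCast_eq_zero_iff M q).mp h)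
  refine ⟨(M : ℤ) * ((k / (M : ZMod q)).val : ℤ), dvd_mul_right _ _, ?_⟩
  push_cast
  rw [ZMod.natCast_val, ZMod.cast_id', id, mul_div_cancel₀ _ hM0]

/-- Representatives for the entry `(1, 0)`. -/
theorem exists_reps_lower (hM : Nat.Coprime M q) :
    ∃ r : Option (ZMod q) → SL(2, ℤ), IsReps q 1 0 r ∧ ∀ k, r k ∈ Gamma M := by
  choose c hcM hc using exists_dvd_intCast_eq (q := q) hM
  let r : Option (ZMod q) → SL(2, ℤ) := fun o => o.elim (wLift (c 1)) fun k => lowerN (c k)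
  refine ⟨r, fun g => ?_, fun o => ?_⟩
  swap
  · cases o with
    | none => exact wLift_mem_Gamma (hcM 1)
    | some k => exact lowerN_mem_Gamma (hcM k)
  set a : ZMod q := ((g.1 0 0 : ℤ) : ZMod q)
  set b : ZMod q := ((g.1 1 0 : ℤ) : ZMod q)
  have hnone : (q : ℤ) ∣ ((r none)⁻¹ * g).1 1 0 ↔ a = 0 := by
    rw [Matrix.SpecialLinearGroup.coe_mul, show r none = wLift (c 1) from rfl, coe_wLift_inv,
      ← ZMod.intCast_zmod_eq_zero_iff_dvd]
    simp [Matrix.mul_apply, Fin.sum_univ_two, hc, a]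
  have hsome : ∀ k, (q : ℤ) ∣ ((r (some k))⁻¹ * g).1 1 0 ↔ b = k * a := by
    intro k
    rw [Matrix.SpecialLinearGroup.coe_mul, show r (some k) = lowerN (c k) from rfl, lowerN_inv,
      ← ZMod.intCast_zmod_eq_zero_iff_dvd]
    simp [Matrix.mul_apply, Fin.sum_univ_two, lowerN, hc, a, b]
    constructor <;> intro h <;> linear_combination h
  by_cases ha : a = 0
  · refine ⟨none, hnone.mpr ha, fun o ho => ?_⟩
    cases o with
    | none => rfl
    | some k =>
      have hb : b = 0 := by rw [(hsome k).mp ho, ha, mul_zero]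
      have h := congrArg (Int.cast : ℤ → ZMod q) (det_eq g)
      push_cast at h
      rw [show ((g.1 0 0 : ℤ) : ZMod q) = 0 from ha,
        show ((g.1 1 0 : ℤ) : ZMod q) = 0 from hb] at h
      simp at h
  · refine ⟨some (b / a), (hsome _).mpr (div_mul_cancel₀ _ ha).symm, fun o ho => ?_⟩
    cases o with
    | none => exact absurd (hnone.mp ho) ha
    | some k => rw [(hsome k).mp ho, mul_div_cancel_right₀ _ ha]

/-- Representatives for the entry `(0, 1)`: conjugates by `S` of those for `(1, 0)`. -/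
theorem exists_reps_upper (hM : Nat.Coprime M q) :
    ∃ r : Option (ZMod q) → SL(2, ℤ), IsReps q 0 1 r ∧ ∀ k, r k ∈ Gamma M := by
  obtain ⟨r, hr, hrM⟩ := exists_reps_lower (q := q) hM
  refine ⟨fun k => ModularGroup.S * r k * ModularGroup.S⁻¹, fun g => ?_,
    fun k => (Gamma_normal M).conj_mem _ (hrM k) _⟩
  have hS : ∀ h : SL(2, ℤ), (ModularGroup.S * h * ModularGroup.S⁻¹).1 0 1 = -h.1 1 0 := fun h => by
    simp [ModularGroup.coe_S, Matrix.SpecialLinearGroup.coe_inv, Matrix.adjugate_fin_two,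
      Matrix.mul_apply, Matrix.vecMul, dotProduct, Fin.sum_univ_two]
  have e : ∀ k, (q : ℤ) ∣ ((ModularGroup.S * r k * ModularGroup.S⁻¹)⁻¹ * g).1 0 1 ↔
      (q : ℤ) ∣ ((r k)⁻¹ * (ModularGroup.S⁻¹ * g * ModularGroup.S)).1 1 0 := fun k => by
    rw [← dvd_neg (b := ((r k)⁻¹ * (ModularGroup.S⁻¹ * g * ModularGroup.S)).1 1 0), ← hS]
    simp only [mul_inv_rev, inv_inv, mul_assoc, mul_inv_cancel, mul_one]
  simp only [e]
  exact hr _

end Reps

variable {R : Type*} [CommRing R]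

/-- The traces along the cosets of the entry `(i, j)` modulo `q`, transported by `X`, vanish. -/
def NewAt (q : ℕ) (X : Mat2) (i j : Fin 2) (M : ℕ) {D : ℕ} (x : Additive (Gamma D) →+ R) :
    Prop :=
  ∀ (ι : Type) [Fintype ι] (r : ι → SL(2, ℤ)), IsReps q i j r → (∀ k, r k ∈ Gamma M) →
    ∀ γ ∈ Gamma (D * q), ∑ k, val x (X * ((r k)⁻¹).1) γ = 0

theorem NewAt.mono {q : ℕ} {X : Mat2} {i j : Fin 2} {M M' : ℕ} (hMM : M ∣ M') {D : ℕ}
    {x : Additive (Gamma D) →+ R} (h : NewAt q X i j M x) : NewAt q X i j M' x :=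
  fun ι _ r hr hrM γ hγ => h ι r hr (fun k => Gamma_le_of_dvd hMM (hrM k)) γ hγ

theorem det_mul_coe_ne_zero {X : Mat2} (hX : X.det ≠ 0) (s : SL(2, ℤ)) : (X * s.1).det ≠ 0 := by
  rw [Matrix.det_mul, s.2, mul_one]; exact hX

/-- Twisting at another prime preserves being new at `q`. -/
theorem newAt_twist {D P : ℕ} [Fact P.Prime] (ψ : MulChar (ZMod P) R) {L : ℕ} {χ : ℤ → R}
    {x : Additive (Gamma D) →+ R} (hx : IsNeb L χ x) (hχ1 : χ 1 = 1) {q : ℕ} (hq : q.Prime)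
    (hqP : q ≠ P) {X : Mat2} (hX : X.det ≠ 0) (hXq : X.det.natAbs ∣ q)
    (hcomm : ∀ a : ℤ, (q : ℤ) ∣ a → ∃ b : ℤ, (q : ℤ) ∣ b ∧ trans P a * X = X * trans P b)
    {i j : Fin 2} {M : ℕ} (h : NewAt q X i j M x) {D' : ℕ} (hD : D * P ^ 2 ∣ D') :
    NewAt q X i j (M * P ^ 2) (twist ψ x hD) := by
  have : Fact q.Prime := ⟨hq⟩
  have : NeZero P := ⟨(Fact.out : P.Prime).ne_zero⟩
  intro ι _ r hr hrM γ hγ
  have hdet : ∀ s : SL(2, ℤ), (X * s.1).det.natAbs = X.det.natAbs := fun s => by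
    rw [Matrix.det_mul, s.2, mul_one]
  have hterm : ∀ k, val (twist ψ x hD) (X * ((r k)⁻¹).1) γ =
      ∑ a : ZMod P, ψ a * val x (trans P a.val * (X * ((r k)⁻¹).1)) γ := by
    intro k
    obtain ⟨δ, hδ⟩ := exists_rel (det_mul_coe_ne_zero hX (r k)⁻¹) (D := D') (D' := D' * q)
      (by rw [hdet]; exact Nat.mul_dvd_mul_left D' hXq) hγ
    rw [val_eq (det_mul_coe_ne_zero hX (r k)⁻¹) hδ, twist_apply]
    exact Finset.sum_congr rfl fun a _ => by
      rw [val_comp x (det_trans_ne _) (det_mul_coe_ne_zero hX (r k)⁻¹) hδ]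
  rw [Finset.sum_congr rfl fun k _ => hterm k, Finset.sum_comm]
  refine Finset.sum_eq_zero fun a _ => ?_
  rw [← Finset.mul_sum]
  refine mul_eq_zero_of_right _ ?_
  have hP0 : (q : ZMod P) ≠ 0 := fun h0 => hqP
    ((Nat.prime_dvd_prime_iff_eq Fact.out hq).mp ((ZMod.natCast_eq_zero_iff q P).mp h0)).symm
  obtain ⟨a', ha'q, t, ht⟩ : ∃ a' : ℤ, (q : ℤ) ∣ a' ∧ (P : ℤ) ∣ a' - (a.val : ℤ) := by
    refine ⟨(q : ℤ) * ((a / (q : ZMod P)).val : ℤ), dvd_mul_right _ _, ?_⟩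
    rw [← ZMod.intCast_zmod_eq_zero_iff_dvd]
    push_cast
    simp [mul_div_cancel₀ _ hP0]
  obtain ⟨b, hbq, hb⟩ := hcomm a' ha'q
  have hshift : ∀ s : SL(2, ℤ), val x (trans P a.val * (X * s.1)) γ =
      val x (trans P a' * (X * s.1)) γ := by
    intro s
    have e : trans P a' = (ModularGroup.T ^ t : SL(2, ℤ)).1 * trans P a.val := by
      rw [ModularGroup.coe_T_zpow, Matrix.mul_fin_two]
      simp only [mul_zero, zero_mul, add_zero, one_mul, zero_add]
      rw [show (a.val : ℤ) + t * (P : ℤ) = a' by linear_combination -ht]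
    have hT : (ModularGroup.T ^ t : SL(2, ℤ)) ∈ Gamma0 L := by
      rw [Gamma0_mem, ModularGroup.coe_T_zpow]; simp
    have hY : (trans P a.val * (X * s.1)).det ≠ 0 := by
      rw [Matrix.det_mul]; exact mul_ne_zero (det_trans_ne _) (det_mul_coe_ne_zero hX s)
    have hdvd : D * (trans P a.val * (X * s.1)).det.natAbs ∣ D' * q := by
      rw [Matrix.det_mul, Int.natAbs_mul, hdet, natAbs_det_trans, ← mul_assoc]
      exact Nat.mul_dvd_mul hD hXq
    rw [e, Matrix.mul_assoc, hx.val_coe_mul hT hY (exists_rel hY hdvd hγ),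
      show (ModularGroup.T ^ t : SL(2, ℤ)).1 1 1 = 1 by rw [ModularGroup.coe_T_zpow]; simp, hχ1,
      one_mul]
  obtain ⟨γ', hγ'⟩ := exists_rel (det_trans_ne b) (D := D * q) (D' := D' * q)
    (by rw [natAbs_det_trans, mul_right_comm]; exact Nat.mul_dvd_mul_right hD q) hγ
  choose s hs using fun k => exists_rel (det_trans_ne b) (D := M) (D' := M * P ^ 2)
    (by rw [natAbs_det_trans]) (inv_mem (hrM k))
  have hred : ∀ k, Matrix.SpecialLinearGroup.map (Int.castRingHom (ZMod q)) (s k).1 =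
      Matrix.SpecialLinearGroup.map (Int.castRingHom (ZMod q)) (r k)⁻¹ := by
    intro k
    have hPq : (P : ZMod q) ≠ 0 := fun h0 => hqP
      ((Nat.prime_dvd_prime_iff_eq hq Fact.out).mp ((ZMod.natCast_eq_zero_iff P q).mp h0))
    have hb0 : (b : ZMod q) = 0 := (ZMod.intCast_zmod_eq_zero_iff_dvd b q).mpr hbq
    refine Subtype.ext ?_
    have hk := congrArg (fun Y : Mat2 => Y.map (Int.castRingHom (ZMod q))) (hs k)
    simp only [Matrix.map_mul] at hk
    have htr : (trans P b).map (Int.castRingHom (ZMod q)) = (P : ZMod q) • 1 := by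
      ext u v
      fin_cases u <;> fin_cases v <;> simp [EigenTwist.trans, hb0]
    rw [htr, Matrix.smul_mul, Matrix.mul_smul, one_mul, mul_one] at hk
    exact (smul_right_injective _ hPq hk).symm
  have hsum := h ι (fun k => (s k).1⁻¹) (hr.congr fun k => by rw [map_inv, hred, map_inv, inv_inv])
    (fun k => inv_mem (s k).2) γ'.1 γ'.2
  refine Eq.trans (Finset.sum_congr rfl fun k _ => ?_) hsum
  have hk : trans P b * ((r k)⁻¹).1 = (s k).1.1 * trans P b := hs k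
  rw [inv_inv, hshift, ← Matrix.mul_assoc, hb, Matrix.mul_assoc, hk, ← Matrix.mul_assoc,
    val_comp x (det_mul_coe_ne_zero hX _) (det_trans_ne b) hγ']

section Cores

variable {G H K : Subgroup SL(2, ℤ)} [H.FiniteIndex] (h : H ≤ G) (α : H →* K) {X : Mat2}
  (hX : X.det ≠ 0) (hα : ∀ u : H, Rel X (u : SL(2, ℤ)) (α u : SL(2, ℤ))) {q : ℕ}
  (hXq : X.det.natAbs ∣ q) {i j : Fin 2} (hij : i ≠ j)
  (hH : ∀ g ∈ G, g ∈ H ↔ (q : ℤ) ∣ g.1 i j) {D : ℕ} (hDK : Gamma D ≤ K)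
  (hDH : Gamma (D * q) ≤ H) {A : Type*} [AddCommGroup A] (φ : Additive K →+ A)

include hX hα hXq hij hH in
/-- A corestriction restricted to `Γ(D q)`. -/
theorem cores_apply_gamma {ι : Type} [Fintype ι] {r : ι → SL(2, ℤ)} (hr : IsReps q i j r)
    (hrG : ∀ k, r k ∈ G) (γ : SL(2, ℤ)) (hγ : γ ∈ Gamma (D * q)) :
    coresHom h (φ.comp (MonoidHom.toAdditive α)) (Additive.ofMul ⟨γ, h (hDH hγ)⟩) =
      ∑ k, val (resHom hDK φ) (X * ((r k)⁻¹).1) γ := by
  let r' : ι → G := fun k => ⟨r k, hrG k⟩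
  have hbij : Function.Bijective fun k => ((r' k : G) : G ⧸ H.subgroupOf G) := by
    constructor
    · intro a b hab
      rw [QuotientGroup.eq, Subgroup.mem_subgroupOf, hH _ (SetLike.coe_mem _)] at hab
      refine (hr (r b)).unique hab ?_
      rw [inv_mul_cancel, Matrix.SpecialLinearGroup.coe_one, Matrix.one_apply_ne hij]
      exact dvd_zero _
    · intro y
      obtain ⟨g, rfl⟩ := QuotientGroup.mk_surjective y
      obtain ⟨k, hk, -⟩ := hr g
      refine ⟨k, ?_⟩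
      rw [QuotientGroup.eq, Subgroup.mem_subgroupOf, hH _ (SetLike.coe_mem _)]
      exact hk
  have hconj : ∀ k, (r k)⁻¹ * (γ * r k) ∈ Gamma (D * q) := fun k => by
    simpa [mul_assoc] using (Gamma_normal (D * q)).conj_mem _ hγ (r k)⁻¹
  have hσ : ∀ k, ((r' k)⁻¹ * (⟨γ, h (hDH hγ)⟩ * r' k) : G).1 ∈ H := fun k => hDH (hconj k)
  rw [coresHom_apply_reps h _ r' hbij _ id hσ]
  refine Finset.sum_congr rfl fun k _ => ?_
  obtain ⟨δ, hδ⟩ := exists_rel (det_mul_coe_ne_zero hX (r k)⁻¹) (D := D) (D' := D * q)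
    (by rw [Matrix.det_mul, ((r k)⁻¹).2, mul_one]; exact Nat.mul_dvd_mul_left D hXq) hγ
  rw [val_eq (det_mul_coe_ne_zero hX (r k)⁻¹) hδ]
  refine congrArg (fun z => φ (Additive.ofMul z)) (Subtype.ext ?_)
  refine Rel.unique (det_mul_coe_ne_zero hX (r k)⁻¹) ?_ hδ
  refine (?_ : Rel ((r k)⁻¹).1 γ _).comp (hα ⟨_, hσ k⟩)
  have e := rel_coe (r k)⁻¹ γ
  rw [inv_inv, mul_assoc] at e
  exact e

end Cores

section Bridge

variable {G H K : Subgroup SL(2, ℤ)} [H.FiniteIndex] (h : H ≤ G) (α : H →* K) {X : Mat2}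
  (hX : X.det ≠ 0) (hα : ∀ u : H, Rel X (u : SL(2, ℤ)) (α u : SL(2, ℤ))) {q : ℕ}
  (hXq : X.det.natAbs ∣ q) {i j : Fin 2} (hij : i ≠ j)
  (hH : ∀ g ∈ G, g ∈ H ↔ (q : ℤ) ∣ g.1 i j) {D : ℕ} (hDK : Gamma D ≤ K)
  (hDH : Gamma (D * q) ≤ H) {M : ℕ} (hMG : Gamma M ≤ G)

include hX hα hXq hij hH hDH hMG in
/-- A character killed by the corestriction is new. -/
theorem newAt_of_cores_eq_zero (φ : Additive K →+ R)
    (h0 : coresHom h (φ.comp (MonoidHom.toAdditive α)) = 0) :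
    NewAt q X i j M (resHom hDK φ) := fun ι _ r hr hrM γ hγ => by
  rw [← cores_apply_gamma h α hX hα hXq hij hH hDK hDH φ hr (fun k => hMG (hrM k)) γ hγ, h0]
  rfl

include hX hα hXq hij hH hDH hMG in
/-- Over a field of characteristic zero a new character is killed by the corestriction. -/
theorem cores_eq_zero_of_newAt {F : Type*} [Field F] [CharZero F] [NeZero (D * q)]
    (φ : Additive K →+ F) (hnew : NewAt q X i j M (resHom hDK φ)) {ι : Type} [Fintype ι]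
    {r : ι → SL(2, ℤ)} (hr : IsReps q i j r) (hrM : ∀ k, r k ∈ Gamma M) :
    coresHom h (φ.comp (MonoidHom.toAdditive α)) = 0 := by
  refine eq_zero_of_resHom_eq_zero (hDH.trans h) (Hecke.addChar_ext fun γ => ?_)
  show coresHom h _ (Additive.ofMul ⟨γ.1, h (hDH γ.2)⟩) = 0
  rw [cores_apply_gamma h α hX hα hXq hij hH hDK hDH φ hr (fun k => hMG (hrM k)) γ.1 γ.2]
  exact hnew ι r hr hrM γ.1 γ.2

end Bridge

end Fermat.Agent.Raising
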