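import Fermat.Agent.EigenTwist.Descend
import Fermat.Agent.LevelLowering.PointTools
import Fermat.Agent.Raising.NewPoints.Gamma0
import Fermat.Agent.Raising.NewPoints.NewAt

/-!
# New points survive twisting

An eigencharacter of `Γ(D)` with nebentypus which is new at `q` gives, after twisting the
nebentypus away, an eigencharacter of `Γ₀` killed by both transfers at `q`; so its representation
has Frobenius trace `±(q + 1)` there.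
-/

noncomputable section

open scoped MatrixGroups
open Polynomial CongruenceSubgroup Fermat.Agent.Grp Fermat.Agent.Ihara Fermat.Agent.EigenTwist

namespace Fermat.Agent.Raising

local notation "Qbar" => AlgebraicClosure ℚ
local notation "GQ" => (AlgebraicClosure ℚ ≃ₐ[ℚ] AlgebraicClosure ℚ)

/-- Both conditions of being new at `q`. -/
def NewBoth (q M : ℕ) {D : ℕ} {R : Type*} [CommRing R] (x : Additive (Gamma D) →+ R) : Prop :=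
  NewAt q 1 1 0 M x ∧ NewAt q (diagUp q) 0 1 M x

theorem natAbs_det_diagUp_dvd (q : ℕ) : (diagUp q).det.natAbs ∣ q := by simp

/-- For `q` prime to `N`, inside `Γ₀(N)` the group `Γ₀(N q)` is cut out by `q ∣ c`. -/
theorem mem_Gamma0_mul_iff {N q : ℕ} (hqN : Nat.Coprime N q) {g : SL(2, ℤ)} (hg : g ∈ Gamma0 N) :
    g ∈ Gamma0 (N * q) ↔ (q : ℤ) ∣ g.1 1 0 := by
  rw [Hecke.Gamma0_mem_iff_dvd]
  refine ⟨fun h => (Int.natCast_dvd_natCast.mpr (dvd_mul_left q N)).trans h, fun h => ?_⟩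
  push_cast
  exact (Int.isCoprime_iff_nat_coprime.mpr (by simpa using hqN) : IsCoprime (N : ℤ) q).mul_dvd
    (Hecke.Gamma0_mem_iff_dvd.mp hg) h

theorem not_dvd_mul_prod_sq {q L : ℕ} {s : Finset ℕ} (hq : q.Prime) (hp : ∀ r ∈ s, r.Prime)
    (hqs : q ∉ s) (hqL : ¬ q ∣ L) : ¬ q ∣ L * (∏ r ∈ s, r) ^ 2 := fun h => by
  rcases hq.dvd_mul.mp h with h | h
  · exact hqL h
  · obtain ⟨r, hr, hqr⟩ := (hq.prime.dvd_finsetProd_iff _).mp (hq.dvd_of_dvd_pow h)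
    exact hqs ((Nat.prime_dvd_prime_iff_eq hq (hp r hr)).mp hqr ▸ hr)

variable {R : Type*} [Field R] [CharZero R]

omit [CharZero R] in
/-- Twisting at `P ≠ q` preserves both conditions. -/
theorem newBoth_twist {D P : ℕ} [Fact P.Prime] (ψ : MulChar (ZMod P) R) {L : ℕ} {χ : ℤ → R}
    {x : Additive (Gamma D) →+ R} (hx : IsNeb L χ x) (hχ1 : χ 1 = 1) {q : ℕ} [Fact q.Prime]
    [NeZero q] (hqP : q ≠ P) {M : ℕ} (h : NewBoth q M x) {D' : ℕ} (hD : D * P ^ 2 ∣ D') :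
    NewBoth q (M * P ^ 2) (twist ψ x hD) := by
  refine ⟨newAt_twist ψ hx hχ1 Fact.out hqP (by simp) (by simp) (fun a ha => ⟨a, ha, ?_⟩) h.1 hD,
    newAt_twist ψ hx hχ1 Fact.out hqP det_diagUp (natAbs_det_diagUp_dvd q)
      (fun a _ => ⟨a * q, dvd_mul_left _ _, ?_⟩) h.2 hD⟩
  · rw [mul_one, one_mul]
  · ext u v
    fin_cases u <;> fin_cases v <;> simp [EigenTwist.trans, Matrix.mul_apply,
      Fin.sum_univ_two]; ring

/-- **The twisted eigencharacter is killed by both transfers at `q`.** -/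
theorem exists_twist_newBoth (ψ : ∀ r : ℕ, MulChar (ZMod r) R) (s : Finset ℕ) {q L : ℕ}
    [Fact q.Prime] [NeZero q] (hqs : q ∉ s) (hqL : ¬ q ∣ L) (D : ℕ) [NeZero D]
    [NeZero (L * (∏ r ∈ s, r) ^ 2)] [NeZero (L * (∏ r ∈ s, r) ^ 2 * q)]
    (x : Additive (Gamma D) →+ R) (hp : ∀ r ∈ s, r.Prime) (hL0 : ∀ r ∈ s, ¬ r ∣ L * q)
    (hL : L * q * ∏ r ∈ s, r ∣ D) (hψ2 : ∀ r ∈ s, ψ r ^ 2 ≠ 1) (heven : ∀ r ∈ s, ψ r (-1) = 1)
    (hx : IsNeb (L * q * ∏ r ∈ s, r) (fun d => ∏ r ∈ s, ψ r (d : ZMod r) ^ 2) x)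
    (hcl : IsClHom (Gamma D) x) (hx0 : x ≠ 0) {M : ℕ} (hMq : Nat.Coprime M q)
    (hnew : NewBoth q M x) :
    ∃ y : Additive (Gamma0 (L * (∏ r ∈ s, r) ^ 2 * q)) →+ R,
      IsClHom (Gamma0 (L * (∏ r ∈ s, r) ^ 2 * q)) y ∧ y ≠ 0 ∧
      corA (L * (∏ r ∈ s, r) ^ 2) q y = 0 ∧ corB (L * (∏ r ∈ s, r) ^ 2) q y = 0 ∧
      ∀ (ℓ : ℕ) [NeZero ℓ] (hℓD : Nat.Coprime ℓ D), ℓ.Prime → ℓ ∉ s → ∀ α β : R,
        opD hℓD x = α • x → β * ∏ r ∈ s, ψ r (ℓ : ZMod r) = α →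
        Hecke.perTransfer (L * (∏ r ∈ s, r) ^ 2 * q) ℓ R y = β • y := by
  obtain ⟨D', hD'0, x', hdvd, hneb, hcl', hne, ⟨M₁, hM₁, hnew'⟩, hop⟩ :=
    exists_twist_set_inv ψ (fun _ z => ∃ M' : ℕ, Nat.Coprime M' q ∧ NewBoth q M' z) s
      (fun r hr _ D L χ z hz hz1 ⟨M', hM', hnew'⟩ => ⟨M' * r ^ 2, Nat.Coprime.mul_left hM'
        (((Nat.coprime_primes (hp r hr) Fact.out).mpr fun e : r = q => hqs (e ▸ hr)).pow_left 2),
        newBoth_twist (ψ r) hz hz1 (fun e : q = r => hqs (e ▸ hr)) hnew' _⟩)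
      D (L * q) (fun _ => 1) x hp hL0 hL (fun _ _ _ => rfl) rfl hψ2 heven (by simpa using hx) hcl
      hx0 ⟨M, hMq, hnew⟩
  have hlev : L * q * (∏ r ∈ s, r) ^ 2 = L * (∏ r ∈ s, r) ^ 2 * q := by ring
  rw [hlev] at hdvd hneb
  set L' := L * (∏ r ∈ s, r) ^ 2 with hL'
  have hqL' : ¬ q ∣ L' := not_dvd_mul_prod_sq Fact.out hp hqs hqL
  obtain ⟨y, hy, hres⟩ := exists_descend hdvd hneb hcl'
  have hcop : Nat.Coprime (M₁ * L') q := Nat.Coprime.mul_left hM₁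
    (((Fact.out : q.Prime).coprime_iff_not_dvd.mpr hqL').symm)
  have hMG : Gamma (M₁ * L') ≤ Gamma0 L' := gamma_le_Gamma0 (dvd_mul_left _ _)
  have : NeZero (D' * q) := ⟨mul_ne_zero (NeZero.ne D') (NeZero.ne q)⟩
  have hA : corA L' q y = 0 := by
    obtain ⟨r, hr, hrM⟩ := exists_reps_lower (q := q) hcop
    rw [corA, show y = y.comp (MonoidHom.toAdditive (MonoidHom.id (Gamma0 (L' * q)))) from
      AddMonoidHom.ext fun _ => rfl]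
    refine cores_eq_zero_of_newAt (M := M₁ * L') (Gamma0_le_mul L' q) (MonoidHom.id _)
      (X := 1) (by simp) (fun u => ?_) (by simp) (i := 1) (j := 0) (by decide) (fun g hg => ?_)
      (gamma_le_Gamma0 hdvd) (gamma_le_Gamma0 (hdvd.mul_right q)) hMG y ?_ hr hrM
    · show (1 : Mat2) * _ = _ * (1 : Mat2)
      rw [one_mul, mul_one]
      rfl
    · exact mem_Gamma0_mul_iff ((Fact.out : q.Prime).coprime_iff_not_dvd.mpr hqL').symm hg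
    · rw [hres]; exact hnew'.1.mono (dvd_mul_right _ _)
  have hB : corB L' q y = 0 := by
    obtain ⟨r, hr, hrM⟩ := exists_reps_upper (q := q) hcop
    refine cores_eq_zero_of_newAt (M := M₁ * L') (upperGrp_le L' q) (alphaUp L' q)
      (X := diagUp q) det_diagUp (fun u => (alphaUp_spec u).symm) (natAbs_det_diagUp_dvd q)
      (i := 0) (j := 1) (by decide) (fun g hg => ?_)
      (gamma_le_Gamma0 hdvd) ?_ hMG y ?_ hr hrM
    · rw [mem_upperGrp]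
      exact ⟨fun ⟨_, h⟩ => h, fun h => ⟨hg, h⟩⟩
    · intro g hg
      refine mem_upperGrp.mpr ⟨gamma_le_Gamma0 (((dvd_mul_right L' q).trans hdvd).trans
        (dvd_mul_right D' q)) hg, ?_⟩
      simpa using (Int.natCast_dvd_natCast.mpr (dvd_mul_left q D')).trans
        (dvd_sub_one_of_mem_Gamma hg 0 1)
    · rw [hres]; exact hnew'.2.mono (dvd_mul_right _ _)
  refine ⟨y, hy, fun h => hne (by rw [← hres, h]; rfl), hA, hB,
    fun ℓ _ hℓD hℓ hℓs α β hα hβ => ?_⟩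
  obtain ⟨hℓD', hop'⟩ := hop ℓ hℓD hℓ hℓs
  refine sub_eq_zero.mp (eq_zero_of_resHom_eq_zero (gamma_le_Gamma0 hdvd) ?_)
  have e := resHom_perTransfer hdvd hℓ hℓD' y
  rw [hres, hop' α β hα hβ] at e
  refine Hecke.addChar_ext fun γ => ?_
  have e1 := DFunLike.congr_fun e (Additive.ofMul γ)
  have e2 := DFunLike.congr_fun hres (Additive.ofMul γ)
  show Hecke.perTransfer _ ℓ R y (Additive.ofMul (Subgroup.inclusion _ γ)) -
    β • y (Additive.ofMul (Subgroup.inclusion _ γ)) = 0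
  rw [sub_eq_zero]
  refine Eq.trans e1 ?_
  rw [AddMonoidHom.smul_apply, ← e2]
  rfl

/-- **A twisted new eigencharacter gives a new eigenclass of `Γ₀`** with the same eigenvalues. -/
theorem exists_gamma0_of_twist_new {K : Type} [Field K] [CharZero K]
    (ψ : ∀ r : ℕ, MulChar (ZMod r) K) (s : Finset ℕ) {q L : ℕ} [Fact q.Prime] [NeZero q]
    [NeZero L] (hqs : q ∉ s) (hqL : ¬ q ∣ L) (D : ℕ) [NeZero D]
    (x : Additive (Gamma D) →+ K) (hp : ∀ r ∈ s, r.Prime) (hL0 : ∀ r ∈ s, ¬ r ∣ L * q)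
    (hL : L * q * ∏ r ∈ s, r ∣ D) (hψ2 : ∀ r ∈ s, ψ r ^ 2 ≠ 1) (heven : ∀ r ∈ s, ψ r (-1) = 1)
    (hx : IsNeb (L * q * ∏ r ∈ s, r) (fun d => ∏ r ∈ s, ψ r (d : ZMod r) ^ 2) x)
    (hcl : IsClHom (Gamma D) x) (hx0 : x ≠ 0) {M : ℕ} (hMq : Nat.Coprime M q)
    (hnew : NewBoth q M x) {S : Finset ℕ} (hDS : ∀ r : ℕ, r.Prime → r ∣ D → r ∈ S)
    {O : Type} [CommRing O] (j : O →+* K) (hj : Function.Injective j) (a : ℕ → O)
    (hT : ∀ (ℓ : ℕ) [NeZero ℓ] (hℓD : Nat.Coprime ℓ D), ℓ.Prime → ℓ ∉ S →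
      opD hℓD x = (j (a ℓ) * ∏ r ∈ s, ψ r (ℓ : ZMod r)) • x) :
    ∃ (L' : ℕ) (_ : NeZero L') (_ : NeZero (L' * q)), ¬ q ∣ L' ∧
      (∀ r : ℕ, r.Prime → r ∣ L' * q → r ∈ (↑S : Set ℕ)) ∧
      ∃ (θ : CuspForm.heckeAlgebra (L' * q) 2 (↑S : Set ℕ) →+* O) (y : clH K (L' * q)),
        y ≠ 0 ∧ clCorA K L' q y = 0 ∧ clCorB K L' q y = 0 ∧
        ∀ (ℓ : ℕ) [NeZero ℓ] (hℓ : ℓ.Prime) (hℓN : ¬ ℓ ∣ L' * q) (hℓS : ℓ ∉ (↑S : Set ℕ)),
          θ (CuspForm.heckeAlgebra.T hℓ hℓN hℓS) = a ℓ ∧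
            clT K (L' * q) ℓ y = j (θ (CuspForm.heckeAlgebra.T hℓ hℓN hℓS)) • y := by
  set P := ∏ r ∈ s, r with hP
  have hP0 : P ≠ 0 := Finset.prod_ne_zero_iff.mpr fun r hr => (hp r hr).ne_zero
  have : NeZero (L * P ^ 2) := ⟨mul_ne_zero (NeZero.ne L) (pow_ne_zero 2 hP0)⟩
  have : NeZero (L * P ^ 2 * q) := ⟨mul_ne_zero (NeZero.ne _) (NeZero.ne q)⟩
  obtain ⟨y, hy, hy0, hA0, hB0, hyT⟩ :=
    exists_twist_newBoth ψ s hqs hqL D x hp hL0 hL hψ2 heven hx hcl hx0 hMq hnew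
  have hdvdS : ∀ r : ℕ, r.Prime → r ∣ L * P ^ 2 * q → r ∈ (↑S : Set ℕ) := by
    intro r hr h
    refine hDS r hr (Dvd.dvd.trans ?_ hL)
    rcases hr.dvd_mul.mp h with h | h
    · rcases hr.dvd_mul.mp h with h | h
      · exact dvd_mul_of_dvd_left (dvd_mul_of_dvd_left h q) P
      · exact dvd_mul_of_dvd_right (hr.dvd_of_dvd_pow h) _
    · exact dvd_mul_of_dvd_left (dvd_mul_of_dvd_right h L) P
  have hsS : ∀ r ∈ s, r ∈ S := fun r hr =>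
    hdvdS r (hp r hr) (dvd_mul_of_dvd_left (dvd_mul_of_dvd_right
      (dvd_pow (Finset.dvd_prod_of_mem _ hr) two_ne_zero) _) q)
  have hyeig : ∀ (ℓ : ℕ) [NeZero ℓ], ℓ.Prime → ℓ ∉ (↑S : Set ℕ) →
      Hecke.perTransfer (L * P ^ 2 * q) ℓ K y = j (a ℓ) • y := fun ℓ _ hℓ hℓS => by
    have hℓD : Nat.Coprime ℓ D := hℓ.coprime_iff_not_dvd.mpr fun h => hℓS (hDS ℓ hℓ h)
    exact hyT ℓ hℓD hℓ (fun h => hℓS (hsS ℓ h)) _ _ (hT ℓ hℓD hℓ hℓS) rfl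
  obtain ⟨θ, hθ⟩ := LevelLowering.exists_heckeHom (S := (↑S : Set ℕ)) hdvdS j hj y hy hy0 a hyeig
  have hqL' : ¬ q ∣ L * P ^ 2 := not_dvd_mul_prod_sq Fact.out hp hqs hqL
  exact ⟨L * P ^ 2, inferInstance, inferInstance, hqL', hdvdS, θ, ⟨y, hy⟩,
    fun h => hy0 (congrArg Subtype.val h), Subtype.ext hA0, Subtype.ext hB0,
    fun ℓ _ hℓ hℓN hℓS => ⟨hθ ℓ hℓ hℓN hℓS, Subtype.ext (by
      rw [hθ ℓ hℓ hℓN hℓS]
      exact hyeig ℓ hℓ hℓS)⟩⟩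

end Fermat.Agent.Raising
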