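import Fermat.Agent.LevelLowering.TWPointsExist
import Fermat.Agent.Raising.NewPoints.Twisted

/-!
# New points at Taylor–Wiles levels

An eigenvector at a Taylor–Wiles level `N q` killed by the two transfers to level `N` at `q` gives
representations with Frobenius trace `±(q + 1)` at `q`.
-/

noncomputable section

open scoped MatrixGroups
open Polynomial CongruenceSubgroup Fermat.Agent.Grp Fermat.Agent.Ihara Fermat.Agent.LevelLowering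

namespace Fermat.Agent.Raising

local notation "Qbar" => AlgebraicClosure ℚ
local notation "GQ" => (AlgebraicClosure ℚ ≃ₐ[ℚ] AlgebraicClosure ℚ)

/-- The elements of `G` in `Γ₀(N)` with upper right entry divisible by `q`. -/
def upperPsi (q : ℕ) (G : Subgroup SL(2, ℤ)) (N : ℕ) : Subgroup SL(2, ℤ) := G ⊓ upperGrp N q

theorem upperPsi_le (q : ℕ) (G : Subgroup SL(2, ℤ)) (N : ℕ) : upperPsi q G N ≤ G := inf_le_left

variable {N q : ℕ} [NeZero q] {Δ : Type*} [CommGroup Δ]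
  (Ψ : (ZMod N)ˣ →* Δ) (Ψ' : (ZMod (N * q))ˣ →* Δ)
  (hcomp : Ψ' = Ψ.comp (ZMod.unitsMap (dvd_mul_right N q)))

omit [NeZero q] in
include hcomp in
theorem dChar_comp {g : SL(2, ℤ)} (hg : g ∈ Gamma0 (N * q)) :
    dChar Ψ' ⟨g, hg⟩ = dChar Ψ ⟨g, Gamma0_le_mul N q hg⟩ := by
  rw [hcomp]
  refine congrArg Ψ (Units.ext ?_)
  rw [ZMod.unitsMap_val]
  show ZMod.cast ((g.1 1 1 : ℤ) : ZMod (N * q)) = ((g.1 1 1 : ℤ) : ZMod N)
  exact ZMod.cast_intCast (dvd_mul_right N q) _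

omit [NeZero q] in
include hcomp in
/-- `GammaPsi Ψ'` inside `GammaPsi Ψ` is cut out by `q ∣ c`. -/
theorem mem_GammaPsi_comp (hqN : Nat.Coprime N q) {g : SL(2, ℤ)} (hg : g ∈ GammaPsi Ψ) :
    g ∈ GammaPsi Ψ' ↔ (q : ℤ) ∣ g.1 1 0 := by
  constructor
  · intro h
    exact (Int.natCast_dvd_natCast.mpr (dvd_mul_left q N)).trans
      (Hecke.Gamma0_mem_iff_dvd.mp (GammaPsi_le Ψ' h))
  · intro h
    have hg0 : g ∈ Gamma0 (N * q) := (mem_Gamma0_mul_iff hqN (GammaPsi_le Ψ hg)).mpr h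
    refine (mem_GammaPsi Ψ' ⟨g, hg0⟩).mpr ?_
    rw [dChar_comp Ψ Ψ' hcomp hg0]
    exact (mem_GammaPsi Ψ ⟨g, GammaPsi_le Ψ hg⟩).mp hg

omit [NeZero q] in
include hcomp in
theorem GammaPsi_comp_le : GammaPsi Ψ' ≤ GammaPsi Ψ := fun g h => by
  refine (mem_GammaPsi Ψ ⟨g, Gamma0_le_mul N q (GammaPsi_le Ψ' h)⟩).mpr ?_
  rw [← dChar_comp Ψ Ψ' hcomp (GammaPsi_le Ψ' h)]
  exact (mem_GammaPsi Ψ' ⟨g, GammaPsi_le Ψ' h⟩).mp h

include hcomp in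
theorem alphaUp_mem_GammaPsi {u : SL(2, ℤ)} (hu : u ∈ upperPsi q (GammaPsi Ψ) N) :
    (alphaUp N q ⟨u, hu.2⟩).1 ∈ GammaPsi Ψ' := by
  set v := alphaUp N q ⟨u, hu.2⟩
  have hd : v.1.1 1 1 = u.1 1 1 := by
    have h := congrArg (fun Y : Matrix (Fin 2) (Fin 2) ℤ => Y 1 1) (alphaUp_spec ⟨u, hu.2⟩)
    have hq : (q : ℤ) ≠ 0 := by exact_mod_cast NeZero.ne q
    change (v.1.1 * !![1, 0; 0, (q : ℤ)]) 1 1 = (!![1, 0; 0, (q : ℤ)] * u.1) 1 1 at h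
    simp [Matrix.mul_apply, Fin.sum_univ_two] at h
    exact mul_right_cancel₀ hq (by linear_combination h)
  refine (mem_GammaPsi Ψ' v).mpr ?_
  rw [show v = ⟨v.1, v.2⟩ from rfl, dChar_comp Ψ Ψ' hcomp v.2]
  refine Eq.trans ?_ ((mem_GammaPsi Ψ ⟨u, GammaPsi_le Ψ hu.1⟩).mp hu.1)
  exact dChar_congr Ψ (by rw [hd])

/-- Conjugation by `diag(1, q)` between the groups of a Taylor–Wiles level. -/
def alphaPsi : upperPsi q (GammaPsi Ψ) N →* GammaPsi Ψ' :=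
  MonoidHom.codRestrict ((Gamma0 (N * q)).subtype.comp
    ((alphaUp N q).comp (Subgroup.inclusion inf_le_right))) (GammaPsi Ψ')
    fun u => alphaUp_mem_GammaPsi Ψ Ψ' hcomp u.2

theorem alphaPsi_spec (u : upperPsi q (GammaPsi Ψ) N) :
    EigenTwist.Rel (EigenTwist.diagUp q) (u : SL(2, ℤ)) (alphaPsi Ψ Ψ' hcomp u : SL(2, ℤ)) :=
  (alphaUp_spec ⟨u.1, u.2.2⟩).symm

instance instFiniteIndex_upperPsi [NeZero N] [Finite Δ] :
    (upperPsi q (GammaPsi Ψ) N).FiniteIndex := by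
  unfold upperPsi
  infer_instance

variable [NeZero N] [Finite Δ]

include hcomp in
/-- Killed by both transfers: new at `q`. -/
theorem newBoth_of_cores (hqN : Nat.Coprime N q) {R : Type*} [CommRing R]
    (φ : Additive (GammaPsi Ψ') →+ R)
    (hA : coresHom (GammaPsi_comp_le Ψ Ψ' hcomp) φ = 0)
    (hB : coresHom (upperPsi_le q (GammaPsi Ψ) N)
      (φ.comp (MonoidHom.toAdditive (alphaPsi Ψ Ψ' hcomp))) = 0) :
    NewBoth q N (resHom (EigenTwist.gamma_le_GammaPsi Ψ') φ) := by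
  constructor
  · refine newAt_of_cores_eq_zero (GammaPsi_comp_le Ψ Ψ' hcomp) (MonoidHom.id _) (X := 1)
      (by simp) (fun u => ?_) (by simp) (i := 1) (j := 0) (by decide)
      (fun g hg => mem_GammaPsi_comp Ψ Ψ' hcomp hqN hg) (EigenTwist.gamma_le_GammaPsi Ψ')
      ((EigenTwist.Gamma_le_of_dvd (dvd_mul_right _ q)).trans (EigenTwist.gamma_le_GammaPsi Ψ'))
      (EigenTwist.gamma_le_GammaPsi Ψ) φ ?_
    · show (1 : Matrix (Fin 2) (Fin 2) ℤ) * _ = _ * (1 : Matrix (Fin 2) (Fin 2) ℤ)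
      rw [one_mul, mul_one]
      rfl
    · rw [show φ.comp (MonoidHom.toAdditive (MonoidHom.id (GammaPsi Ψ'))) = φ from
        AddMonoidHom.ext fun _ => rfl]
      exact hA
  · refine newAt_of_cores_eq_zero (upperPsi_le q (GammaPsi Ψ) N) (alphaPsi Ψ Ψ' hcomp)
      EigenTwist.det_diagUp (alphaPsi_spec Ψ Ψ' hcomp) (natAbs_det_diagUp_dvd q) (i := 0) (j := 1)
      (by decide) (fun g hg => ?_) (EigenTwist.gamma_le_GammaPsi Ψ') (fun g hg => ?_)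
      (EigenTwist.gamma_le_GammaPsi Ψ) φ hB
    · rw [upperPsi, Subgroup.mem_inf, mem_upperGrp]
      exact ⟨fun ⟨_, _, h⟩ => h, fun h => ⟨hg, GammaPsi_le Ψ hg, h⟩⟩
    · have h1 : g ∈ GammaPsi Ψ := EigenTwist.gamma_le_GammaPsi Ψ
        (EigenTwist.Gamma_le_of_dvd ((dvd_mul_right N q).trans (dvd_mul_right _ q)) hg)
      rw [upperPsi, Subgroup.mem_inf, mem_upperGrp]
      refine ⟨h1, GammaPsi_le Ψ h1, ?_⟩
      simpa using (Int.natCast_dvd_natCast.mpr (dvd_mul_left q (N * q))).trans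
        (EigenTwist.dvd_sub_one_of_mem_Gamma hg 0 1)

section Level

variable {O : Type} [CommRing O] [IsDomain O] [IsDiscreteValuationRing O]
  [IsAdicComplete (IsLocalRing.maximalIdeal O) O] [Finite (IsLocalRing.ResidueField O)]
  [CharZero O] {p r : ℕ} [Fact p.Prime] {lv : Fin r → ℕ} {qs : Fin r → ℕ} {M : ℕ} [NeZero M]
  {hN : ∀ i, qs i ∣ M * q} {π : ∀ i, (ZMod (qs i))ˣ →* Multiplicative (ZMod (p ^ lv i))}
  (Φ : (ZMod M)ˣ →* DiaGroup p lv) (Φ' : (ZMod (M * q))ˣ →* DiaGroup p lv)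
  (hΦcomp : Φ' = Φ.comp (ZMod.unitsMap (dvd_mul_right M q))) (h : IsTWLevel hN π Φ')
  (hΦ : Function.Surjective Φ') (hneg : (-1 : SL(2, ℤ)) ∈ GammaPsi Φ') (S : Finset ℕ)
  (hMS : ∀ l : ℕ, l.Prime → l ∣ M * q → l ∈ S)

include hΦcomp h in
omit [IsDomain O] [IsDiscreteValuationRing O] [IsAdicComplete (IsLocalRing.maximalIdeal O) O]
    [Finite (IsLocalRing.ResidueField O)] [CharZero O] in
/-- **A new point at a Taylor–Wiles level comes from a new eigenclass of `Γ₀`.** -/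
theorem exists_gamma0_of_new [Fact q.Prime] (hqM : ¬ q ∣ M) (hqs : ∀ i, qs i ≠ q)
    (K : Type) [Field K] [CharZero K] [Algebra O K]
    (φ : clHoms K (GammaPsi Φ') K) (hφ0 : φ ≠ 0)
    (val : levelAlg O Φ' hΦ hneg (goodSet S) →ₐ[O] K) (χ : DiaGroup p lv →* K)
    (hχ : ∀ δ, val (levelElt O Φ' hΦ hneg (goodSet S) (.inr δ)) = χ δ)
    (hD : ∀ δ, diaOp K Φ' hΦ δ φ = χ δ • φ)
    (hT : ∀ ℓ : goodSet S, haveI : NeZero (ℓ.1 : ℕ) := ⟨ℓ.1.2.ne_zero⟩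
      kerOp K Φ' hΦ hneg ℓ.1 φ = val (levelElt O Φ' hΦ hneg (goodSet S) (.inl ℓ)) • φ)
    (hA : coresHom (GammaPsi_comp_le Φ Φ' hΦcomp) φ.1 = 0)
    (hB : coresHom (upperPsi_le q (GammaPsi Φ) M)
      (φ.1.comp (MonoidHom.toAdditive (alphaPsi Φ Φ' hΦcomp))) = 0)
    {R : Type} [CommRing R] [Algebra O R] (j : R →+* K) (hj : Function.Injective j)
    (ev : levelAlg O Φ' hΦ hneg (goodSet S) →ₐ[O] R) (hjev : ∀ z, j (ev z) = val z) :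
    ∃ (L' : ℕ) (_ : NeZero L') (_ : NeZero (L' * q)), ¬ q ∣ L' ∧
      (∀ r : ℕ, r.Prime → r ∣ L' * q → r ∈ (↑S : Set ℕ)) ∧
      ∃ (θ : CuspForm.heckeAlgebra (L' * q) 2 (↑S : Set ℕ) →+* R) (y : clH K (L' * q)),
        y ≠ 0 ∧ clCorA K L' q y = 0 ∧ clCorB K L' q y = 0 ∧
        ∀ (ℓ : ℕ) [NeZero ℓ] (hℓ : ℓ.Prime) (hℓN : ¬ ℓ ∣ L' * q) (hℓS : ℓ ∉ (↑S : Set ℕ)),
          θ (CuspForm.heckeAlgebra.T hℓ hℓN hℓS) = ev (twGood Φ' hΦ hneg S hMS ⟨ℓ, hℓ⟩ hℓS) ∧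
            clT K (L' * q) ℓ y = j (θ (CuspForm.heckeAlgebra.T hℓ hℓN hℓS)) • y := by
  classical
  have hq : q.Prime := Fact.out
  obtain ⟨ψ, s, L0, x, hs, hL0, hsp, hsn, hψ2, heven, -, hxdef, hneb, hxcl, hx0, hop⟩ :=
    exists_twistData Φ' h hΦ hneg S hMS K φ hφ0 val χ hχ hD hT
  have hqns : q ∉ s := fun hm => by
    obtain ⟨i, hi⟩ := hs q hm
    exact hqs i hi
  have hqP : ¬ q ∣ ∏ l ∈ s, l := fun hd => by
    obtain ⟨l, hl, hql⟩ := (hq.prime.dvd_finsetProd_iff _).mp hd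
    exact hqns ((Nat.prime_dvd_prime_iff_eq hq (hsp l hl)).mp hql ▸ hl)
  obtain ⟨L, rfl⟩ : q ∣ L0 :=
    (hq.dvd_mul.mp (hL0 ▸ dvd_mul_left q M)).resolve_right hqP
  have hM : L * ∏ l ∈ s, l = M := Nat.eq_of_mul_eq_mul_left hq.pos (by rw [← mul_assoc, hL0]; ring)
  have hqL : ¬ q ∣ L := fun hd => hqM (hM ▸ hd.mul_right _)
  have : NeZero L := ⟨fun h0 => NeZero.ne M (by rw [← hM, h0, zero_mul])⟩
  have : NeZero (M * q) := ⟨mul_ne_zero (NeZero.ne M) hq.ne_zero⟩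
  have hcop : Nat.Coprime M q := (hq.coprime_iff_not_dvd.mpr hqM).symm
  have hnew : NewBoth q M x := hxdef ▸ newBoth_of_cores Φ Φ' hΦcomp hcop φ.1 hA hB
  let a : ℕ → R := fun ℓ =>
    if hℓ : ℓ.Prime ∧ ℓ ∉ S then ev (twGood Φ' hΦ hneg S hMS ⟨ℓ, hℓ.1⟩ hℓ.2) else 0
  have ha : ∀ (ℓ : ℕ) (hℓ : ℓ.Prime) (hℓS : ℓ ∉ S),
      a ℓ = ev (twGood Φ' hΦ hneg S hMS ⟨ℓ, hℓ⟩ hℓS) := fun ℓ hℓ hℓS => dif_pos ⟨hℓ, hℓS⟩
  rw [mul_comm q L] at hneb hL0 hsn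
  obtain ⟨L', i₁, i₂, hqL', hS, θ, y, hy0, hA0, hB0, hy⟩ := exists_gamma0_of_twist_new ψ s hqns
    hqL (M * q) x hsp hsn (dvd_of_eq hL0) hψ2 heven hneb hxcl hx0 hcop hnew hMS j hj a
    (fun ℓ _ hℓN hℓ hℓS => by rw [ha ℓ hℓ hℓS, hjev]; exact hop ℓ hℓ hℓS hℓN)
  refine ⟨L', i₁, i₂, hqL', hS, θ, y, hy0, hA0, hB0,
    fun ℓ _ hℓ hℓN hℓS => ⟨?_, (hy ℓ hℓ hℓN hℓS).2⟩⟩
  rw [(hy ℓ hℓ hℓN hℓS).1, ha ℓ hℓ hℓS]

include hΦcomp h in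
omit [IsAdicComplete (IsLocalRing.maximalIdeal O) O] [Finite (IsLocalRing.ResidueField O)]
    [CharZero O] in
/-- **New points at a Taylor–Wiles level**: the Frobenius trace at `q` is `±(q + 1)`. -/
theorem trace_frobenius_of_new [Fact q.Prime] (hqM : ¬ q ∣ M) (hqs : ∀ i, qs i ≠ q) (hpS : p ∈ S)
    (hqp : q ≠ p) (hp : (p : O) ∈ IsLocalRing.maximalIdeal O)
    (K : Type) [Field K] [CharZero K] [Algebra O K]
    (φ : clHoms K (GammaPsi Φ') K) (hφ0 : φ ≠ 0)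
    (val : levelAlg O Φ' hΦ hneg (goodSet S) →ₐ[O] K) (χ : DiaGroup p lv →* K)
    (hχ : ∀ δ, val (levelElt O Φ' hΦ hneg (goodSet S) (.inr δ)) = χ δ)
    (hD : ∀ δ, diaOp K Φ' hΦ δ φ = χ δ • φ)
    (hT : ∀ ℓ : goodSet S, haveI : NeZero (ℓ.1 : ℕ) := ⟨ℓ.1.2.ne_zero⟩
      kerOp K Φ' hΦ hneg ℓ.1 φ = val (levelElt O Φ' hΦ hneg (goodSet S) (.inl ℓ)) • φ)
    (hA : coresHom (GammaPsi_comp_le Φ Φ' hΦcomp) φ.1 = 0)
    (hB : coresHom (upperPsi_le q (GammaPsi Φ) M)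
      (φ.1.comp (MonoidHom.toAdditive (alphaPsi Φ Φ' hΦcomp))) = 0)
    {R : Type} [CommRing R] [IsDomain R] [IsDiscreteValuationRing R]
    [IsAdicComplete (IsLocalRing.maximalIdeal R) R] [CharZero R] [Algebra O R]
    [IsLocalHom (algebraMap O R)] (j : R →+* K) (hj : Function.Injective j)
    (ev : levelAlg O Φ' hΦ hneg (goodSet S) →ₐ[O] R) (hjev : ∀ z, j (ev z) = val z)
    (ρ : GaloisRepAdic R)
    (hρ : ∀ (ℓ : ℕ) (hℓ : ℓ.Prime) (hℓS : ℓ ∉ S), ∀ A : ValuationSubring Qbar,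
      A.LiesOverPrime ℓ → ∀ σ : GQ, A.IsFrobeniusAt σ ℓ → LinearMap.charpoly (ρ.ρ σ) =
        X ^ 2 - C (ev (twGood Φ' hΦ hneg S hMS ⟨ℓ, hℓ⟩ hℓS)) * X + C ((ℓ : R)))
    {A : ValuationSubring Qbar} (hAq : A.LiesOverPrime q) {σ : GQ} (hσ : A.IsFrobeniusAt σ q) :
    (ρ.trace σ = (q : R) + 1 ∨ ρ.trace σ = -((q : R) + 1)) ∧
      LinearMap.charpoly (ρ.ρ σ) = X ^ 2 - C (ρ.trace σ) * X + C (q : R) := by
  obtain ⟨L', _, _, hqL', hdvdS, θ, y, hy0, hA0, hB0, hy⟩ :=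
    exists_gamma0_of_new Φ Φ' hΦcomp h hΦ hneg S hMS hqM hqs K φ hφ0 val χ hχ hD hT hA hB j hj ev
      hjev
  refine charpoly_frobenius_of_new Fact.out hqL' hqp hpS hdvdS (by
      rw [← map_natCast (algebraMap O R)]
      exact map_nonunit (algebraMap O R) _ hp) j hj θ y hy0 hA0 hB0
    (fun ℓ _ hℓ hℓN hℓS => (hy ℓ hℓ hℓN hℓS).2) ρ (fun ℓ hℓ hℓN hℓS B hB τ hτ => ?_) hAq hσ
  have : NeZero ℓ := ⟨hℓ.ne_zero⟩
  rw [(hy ℓ hℓ hℓN hℓS).1]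
  exact hρ ℓ hℓ hℓS B hB τ hτ

end Level

end Fermat.Agent.Raising
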