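import Fermat.Agent.Raising.Degen.Maps
import Fermat.Agent.Raising.NewPoints.Point

/-!
# The transfers of the degeneracy maps

The two transfers `psiCorA`, `psiCorB` from level `N q` to level `N` of the degeneracy package are
the transfers used in the description of new points.
-/

noncomputable section

open scoped MatrixGroups
open CongruenceSubgroup Fermat.Agent.Grp Fermat.Agent.Ihara Fermat.Agent.LevelLowering

namespace Fermat.Agent.Raising

/-- Corestriction only depends on the subgroup. -/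
theorem coresHom_eq_of_eq {A : Type*} [AddCommGroup A] {G H H' : Subgroup SL(2, ℤ)} (e : H = H')
    (h : H ≤ G) (h' : H' ≤ G) [H.FiniteIndex] [H'.FiniteIndex] (χ : Additive H →+ A)
    (χ' : Additive H' →+ A)
    (hχ : ∀ (g : SL(2, ℤ)) (hg : g ∈ H) (hg' : g ∈ H'),
      χ (Additive.ofMul ⟨g, hg⟩) = χ' (Additive.ofMul ⟨g, hg'⟩)) :
    coresHom h χ = coresHom h' χ' := by
  subst e
  exact congrArg (coresHom h) (AddMonoidHom.ext fun x => hχ x.toMul.1 x.toMul.2 x.toMul.2)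

variable {N : ℕ} [NeZero N] {Δ : Type} [CommGroup Δ] [Fintype Δ] (Ψ : (ZMod N)ˣ →* Δ)
  {q : ℕ} [NeZero q] {R : Type} [CommRing R]

theorem psiCorA_eq_coresHom (hqN : Nat.Coprime N q)
    (χ : clHoms R (GammaPsi (Degen.liftPsi Ψ q)) R) :
    (Degen.psiCorA Ψ q R χ).1 = coresHom (GammaPsi_comp_le Ψ (Degen.liftPsi Ψ q) rfl) χ.1 := by
  refine coresHom_eq_of_eq (Subgroup.ext fun g => ?_) _ _ _ _ fun g hg hg' => rfl
  rw [Subgroup.mem_inf]
  exact ⟨fun h => (mem_GammaPsi_comp Ψ _ rfl hqN h.2).mpr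
      ((Int.natCast_dvd_natCast.mpr (dvd_mul_left q N)).trans
        (Hecke.Gamma0_mem_iff_dvd.mp h.1)),
    fun h => ⟨GammaPsi_le _ h, GammaPsi_comp_le Ψ _ rfl h⟩⟩

theorem psiCorB_eq_coresHom (χ : clHoms R (GammaPsi (Degen.liftPsi Ψ q)) R) :
    (Degen.psiCorB Ψ q R χ).1 = coresHom (upperPsi_le q (GammaPsi Ψ) N)
      (χ.1.comp (MonoidHom.toAdditive (alphaPsi Ψ (Degen.liftPsi Ψ q) rfl))) :=
  coresHom_eq_of_eq (inf_comm _ _) _ _ _ _ fun _ _ _ => rfl

/-- Killed by both transfers, in the two forms. -/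
theorem psiCor_eq_zero_iff (hqN : Nat.Coprime N q)
    (χ : clHoms R (GammaPsi (Degen.liftPsi Ψ q)) R) :
    (Degen.psiCorA Ψ q R χ = 0 ∧ Degen.psiCorB Ψ q R χ = 0) ↔
      coresHom (GammaPsi_comp_le Ψ (Degen.liftPsi Ψ q) rfl) χ.1 = 0 ∧
        coresHom (upperPsi_le q (GammaPsi Ψ) N)
          (χ.1.comp (MonoidHom.toAdditive (alphaPsi Ψ (Degen.liftPsi Ψ q) rfl))) = 0 := by
  rw [← psiCorA_eq_coresHom Ψ hqN χ, ← psiCorB_eq_coresHom Ψ χ]
  exact ⟨fun h => ⟨congrArg Subtype.val h.1, congrArg Subtype.val h.2⟩,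
    fun h => ⟨Subtype.ext h.1, Subtype.ext h.2⟩⟩

end Fermat.Agent.Raising
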